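import Fermat.Agent.S33.H810.KeyD2Field
import Fermat.Agent.A2.H155.PullTarget
import Fermat.Agent.S33.H855.TowerCore
import Fermat.Agent.Lib.RR.H383.FF1OfFinite

/-!
# Row S33, the `p = 3` gap, step INJ (helper810)

`pullHom_two_inj_of_odd` : for odd `N` the pull-back `π^* : J₀(N) → J₀(2N)` is injective on
torsion of ODD order (in particular on `3`-torsion, although `deg π = 3`).

Proof: `x = [D]`, `m D = div f`, `π^* D = div g` `⟹` `α f = c · g ^ m` in `F_{2N}` `⟹` (CUBIC)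
`f = g₀ ^ m` with `g₀ ∈ F_N` `⟹` `D = div g₀`.
-/

set_option autoImplicit false
set_option linter.unusedSectionVars false
set_option linter.style.haveILetI false
set_option synthInstance.maxHeartbeats 400000
set_option maxHeartbeats 1000000

noncomputable section

namespace Fermat.Agent.S33.H810

open ModularCurve HahnSeries AlgebraicCurve
open Fermat.Agent.S24 Fermat.Agent.Lib.FF398 Fermat.Agent.S37.H818 Fermat.Agent.A2.H129

variable (N : ℕ) [NeZero N]

/-- **INJ.**  For odd `N`, the pull-back `J₀(N) → J₀(2N)` is injective on torsion of odd order. -/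
theorem pullHom_two_inj_of_odd (hN : ¬ 2 ∣ N) {m : ℕ} (hm : Odd m) (x : JZero N)
    (hmx : m • x = 0) (hx : Fermat.Agent.A2.H155.pullHom N 2 x = 0) : x = 0 := by
  have hm0 : (m : ℤ) ≠ 0 := by exact_mod_cast hm.pos.ne'
  obtain ⟨D, f, hf, rfl, hfD⟩ := Fermat.Agent.S33.H855.exists_gen_of_torsion m x hmx
  -- a generator of the pulled-back divisor
  have hx' : Divisor.pullbackAlong (heckeAlphaBar Kbar N 2) (heckeAlphaBarIntegral N 2)
      (D : Divisor Kbar (FF N)) ∈ Divisor.principal (K := Kbar) (F := FF (N * 2)) := by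
    have h1 : pullbackPic0Along (heckeAlphaBar Kbar N 2) (heckeAlphaBarIntegral N 2)
        (fundamentalIdentityAlong_alpha N 2) (Pic0.mk D) = 0 := hx
    rw [pullbackPic0Along_mk, Fermat.Agent.S37.H155.mk_eq_zero_iff,
      coe_pullbackDegZeroAlong] at h1
    exact h1
  obtain ⟨g, hg, hgD⟩ := hx'
  -- `α f / g ^ m` has trivial divisor
  have hαf : heckeAlphaBar Kbar N 2 f ≠ 0 := by
    rw [Ne, map_eq_zero]
    exact hf
  have hgm : g ^ m ≠ 0 := pow_ne_zero m hg
  have hord : ∀ w : Place Kbar (FF (N * 2)),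
      w.ord (heckeAlphaBar Kbar N 2 f * (g ^ m)⁻¹) = 0 := by
    intro w
    rw [ord_div w hαf hgm, Place.ord_restrictAlong (heckeAlphaBar Kbar N 2)
      (heckeAlphaBarIntegral N 2) w f, ord_pow, ← hgD w, Divisor.pullbackAlong_apply, hfD]
    ring
  obtain ⟨c, hc⟩ := Fermat.Agent.Lib.RR.H383.eq_algebraMap_of_forall_ord_eq_zero
    (transcendental_jF (N * 2)) hord
  have hc0 : c ≠ 0 := by
    rintro rfl
    rw [map_zero] at hc
    exact mul_ne_zero hαf (inv_ne_zero hgm) hc.symm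
  obtain ⟨c₀, hc₀⟩ := IsAlgClosed.exists_pow_nat_eq c hm.pos
  -- `α f = (c₀ g) ^ m`
  have hpow : (algebraMap Kbar (FF (N * 2)) c₀ * g) ^ m = heckeAlphaBar Kbar N 2 f := by
    rw [mul_pow, ← map_pow, hc₀]
    have hc' : (algebraMap Kbar (FF (N * 2))) c = heckeAlphaBar Kbar N 2 f * (g ^ m)⁻¹ := hc
    rw [hc', mul_assoc, inv_mul_cancel₀ hgm, mul_one]
  obtain ⟨g₀, hg₀⟩ := exists_heckeAlphaBar_eq_of_pow N hN hm _ f hpow
  have hfg : g₀ ^ m = f := by
    apply (heckeAlphaBar Kbar N 2).toRingHom.injective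
    show heckeAlphaBar Kbar N 2 (g₀ ^ m) = heckeAlphaBar Kbar N 2 f
    rw [map_pow, hg₀, hpow]
  have hg₀0 : g₀ ≠ 0 := by
    rintro rfl
    rw [zero_pow hm.pos.ne'] at hfg
    exact hf hfg.symm
  -- `D = div g₀`
  rw [Fermat.Agent.S37.H155.mk_eq_zero_iff]
  refine ⟨g₀, hg₀0, fun v => ?_⟩
  have h1 := hfD v
  rw [← hfg, ord_pow] at h1
  exact (mul_left_cancel₀ hm0 h1).symm

/-- The case of `3`-torsion. -/
theorem pullHom_two_inj_three (hN : ¬ 2 ∣ N) (x : JZero N) (h3 : 3 • x = 0)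
    (hx : Fermat.Agent.A2.H155.pullHom N 2 x = 0) : x = 0 :=
  pullHom_two_inj_of_odd N hN (by decide : Odd 3) x h3 hx

end Fermat.Agent.S33.H810
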