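import Fermat.Agent.S33.H270.KeySpec
import Fermat.Agent.S33.H810.KeyD2Inj

/-!
# Row S33, the `p = 3` gap: descent of KEY from level `2N` to level `N` (helper810)

The wall at `p` (`OrdFilStatement`, clause (S2)) uses the semistable model of `X₀(pM')`, which for
`p = 3` is available only at the levels with `2 ∣ M'` (good reduction of `X₀(M')` at `3` through
the Hauptmodul `t₂`).  The norm descent of cell A2 does not apply (`deg (X₀(2N) → X₀(N)) = 3 = p`).

* `keyAt_of_injOn`        : abstract descent of `(K)` along an equivariant map which is injective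
                            on `p`-torsion;
* `keyAt_three_of_mul_two`: `KeyAt I 3 (JZero (N * 2)) → KeyAt I 3 (JZero N)` for odd `N`
                            (`pullHom_two_inj_three`);
* `OrdFilReadyStatement`  : `S33.OrdFilStatement` at the READY levels (`p = 3 → 2 ∣ M'`);
* `keyStatement_of_ready` : `OrdFilReadyStatement → OldAugStatement → KeyStatement`.
-/

set_option autoImplicit false
set_option linter.unusedSectionVars false
set_option linter.style.haveILetI false

noncomputable section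

namespace Fermat.Agent.S33.H810

open Fermat.Agent.S31 ModularCurve

section Abstract

variable {G : Type*} [Group G] {J J' : Type*} [AddCommGroup J] [AddCommGroup J']
  [DistribMulAction G J] [DistribMulAction G J']

/-- The image of the augmentation subgroup under an equivariant map. -/
theorem map_iAug_le (I : Subgroup G) (π : J →+ J') (hπ : ∀ (σ : G) (x : J), π (σ • x) = σ • π x)
    (Y : AddSubgroup J) :
    Fermat.Agent.S33.iAug I (Y.map π) ≤ (Fermat.Agent.S33.iAug I Y).map π := by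
  unfold Fermat.Agent.S33.iAug
  rw [AddSubgroup.closure_le]
  rintro z ⟨σ, hσ, y', ⟨y, hy, rfl⟩, rfl⟩
  refine ⟨σ • y - y, AddSubgroup.subset_closure ⟨σ, hσ, y, hy, rfl⟩, ?_⟩
  rw [map_sub, hπ]

/-- An equivariant map sends `I_aug (J[m])` into `I_aug (J'[m])`. -/
theorem map_mem_iAug_torsSub (I : Subgroup G) (π : J →+ J')
    (hπ : ∀ (σ : G) (x : J), π (σ • x) = σ • π x) (m : ℕ) {x : J}
    (hx : x ∈ Fermat.Agent.S33.iAug I (Fermat.Agent.S33.torsSub J m)) :
    π x ∈ Fermat.Agent.S33.iAug I (Fermat.Agent.S33.torsSub J' m) := by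
  unfold Fermat.Agent.S33.iAug at hx ⊢
  induction hx using AddSubgroup.closure_induction with
  | mem z hz =>
    obtain ⟨σ, hσ, y, hy, rfl⟩ := hz
    refine AddSubgroup.subset_closure ⟨σ, hσ, π y, ?_, by rw [map_sub, hπ]⟩
    unfold Fermat.Agent.S33.torsSub at hy ⊢
    rw [AddMonoidHom.mem_ker] at hy ⊢
    show m • π y = 0
    have hy' : m • y = 0 := hy
    rw [← map_nsmul, hy', map_zero]
  | zero => rw [map_zero]; exact AddSubgroup.zero_mem _
  | add a b _ _ ha hb => rw [map_add]; exact AddSubgroup.add_mem _ ha hb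
  | neg a _ ha => rw [map_neg]; exact AddSubgroup.neg_mem _ ha

/-- **Descent of (K)** along an equivariant additive map which is injective on `p`-torsion. -/
theorem keyAt_of_injOn (I : Subgroup G) (p : ℕ) (π : J →+ J')
    (hπ : ∀ (σ : G) (x : J), π (σ • x) = σ • π x)
    (hinj : ∀ x : J, p • x = 0 → π x = 0 → x = 0)
    (h : Fermat.Agent.S33.KeyAt I p J') : Fermat.Agent.S33.KeyAt I p J := by
  intro Y hYG hY y hy
  have hY' : Y.map π ≤ Fermat.Agent.S33.iAug I (Y.map π) := by
    refine h (Y.map π) ?_ ?_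
    · rintro σ _ ⟨z, hz, rfl⟩
      exact ⟨σ • z, hYG σ z hz, hπ σ z⟩
    · rintro _ ⟨z, hz, rfl⟩
      obtain ⟨hpz, n, hn⟩ := hY z hz
      exact ⟨by rw [← map_nsmul, hpz, map_zero], n, map_mem_iAug_torsSub I π hπ _ hn⟩
  obtain ⟨z, hz, hzy⟩ := map_iAug_le I π hπ Y (hY' ⟨y, hy, rfl⟩)
  have hzY : z ∈ Y := by
    have hle : Fermat.Agent.S33.iAug I Y ≤ Y := by
      unfold Fermat.Agent.S33.iAug
      rw [AddSubgroup.closure_le]
      rintro w ⟨σ, -, u, hu, rfl⟩
      exact Y.sub_mem (hYG σ u hu) hu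
    exact hle hz
  have hyz : y - z = 0 := by
    refine hinj (y - z) ?_ ?_
    · rw [nsmul_sub, (hY y hy).1, (hY z hzY).1, sub_zero]
    · rw [map_sub, hzy, sub_self]
  rw [sub_eq_zero.mp hyz]
  exact hz

end Abstract

/-- **KEY-D2.**  For odd `N`, `(K)` at `3` for `J₀(2N)` implies `(K)` at `3` for `J₀(N)`. -/
theorem keyAt_three_of_mul_two (N : ℕ) [NeZero N] (hN : ¬ 2 ∣ N) (I : Subgroup GQ)
    (h : Fermat.Agent.S33.KeyAt I 3 (JZero (N * 2))) : Fermat.Agent.S33.KeyAt I 3 (JZero N) :=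
  keyAt_of_injOn I 3 (Fermat.Agent.A2.H155.pullHom N 2)
    (fun σ x => Fermat.Agent.A2.H155.pullHom_galois N 2 σ x)
    (fun x h3 hx => pullHom_two_inj_three N hN x h3 hx) h

/-- **NEW at the ready levels**: `S33.OrdFilStatement` with the extra hypothesis
`p = 3 → 2 ∣ M'` (the levels at which the semistable model of `X₀(pM')` is on main). -/
def OrdFilReadyStatement : Prop :=
  ∀ (p M' : ℕ) [NeZero M'] [NeZero (p * M')], p.Prime → p ≠ 2 → ¬ p ∣ M' → (p = 3 → 2 ∣ M') →
    ∃ (α β : ModularCurve.JZero (p * M') →+ ModularCurve.JZero M'),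
      (∀ (σ : GQ) (x : ModularCurve.JZero (p * M')), α (σ • x) = σ • α x) ∧
      (∀ (σ : GQ) (x : ModularCurve.JZero (p * M')), β (σ • x) = σ • β x) ∧
      ∀ A : ValuationSubring Qb, A.LiesOverPrime p →
        ∃ 𝒮 : Set (ModularCurve.JZero (p * M')),
          (∀ x : ModularCurve.JZero (p * M'),
            Fermat.Agent.S33.InSPlus (A.inertiaSubgroupIn ℚ) p x → x ∈ 𝒮) ∧
          (∀ x ∈ 𝒮, p • x = 0 → α x = 0 → β x = 0 →
            ∀ σ ∈ A.inertiaSubgroupIn ℚ, ∀ c : ℕ,
              (∀ ζ : Qb, ζ ^ p = 1 → σ ζ = ζ ^ c) → σ • x = c • x)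

theorem ordFilReady_of_ordFil (h : Fermat.Agent.S33.OrdFilStatement) : OrdFilReadyStatement :=
  fun p M' _ _ hp hp2 hpM' _ => h p M' hp hp2 hpM'

/-- KEY at the ready levels (the proof of `H270.keyStatement`, level by level). -/
theorem keyAt_of_ready (hNEW : OrdFilReadyStatement)
    (hOLD : Fermat.Agent.S33.OldAugStatement) (p N : ℕ) [NeZero N] (hp : p.Prime) (hp2 : p ≠ 2)
    (hN : p ∣ N) (hN2 : ¬ p ^ 2 ∣ N) (hready : p = 3 → 2 ∣ N)
    (P : ValuationSubring Qb) (hP : P.LiesOverPrime p) :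
    Fermat.Agent.S33.KeyAt (P.inertiaSubgroupIn ℚ) p (ModularCurve.JZero N) := by
  obtain ⟨M', rfl⟩ := hN
  have hM' : M' ≠ 0 := by
    rintro rfl
    exact NeZero.ne (p * 0) (mul_zero p)
  haveI : NeZero M' := ⟨hM'⟩
  have hpM' : ¬ p ∣ M' := by
    rintro ⟨k, rfl⟩
    exact hN2 ⟨k, by ring⟩
  have hready' : p = 3 → 2 ∣ M' := by
    intro h3
    have h2 := hready h3
    subst h3
    exact (Nat.Coprime.dvd_mul_left (by norm_num : Nat.Coprime 2 3)).1 h2
  obtain ⟨α, β, hα, hβ, hfil⟩ := hNEW p M' hp hp2 hpM' hready'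
  obtain ⟨𝒮, hS1, hS2⟩ := hfil P hP
  obtain ⟨σ₀, hσ₀, c₀, d, hc₀, hcd⟩ :=
    Fermat.Agent.S33.H270.exists_inertia_scalar_spec hp hp2 P hP
  intro Y hYG hY
  rw [Fermat.Agent.S33.H270.spec_iAug_eq]
  refine Fermat.Agent.S33.H270.key_of (I := P.inertiaSubgroupIn ℚ) (p := p) α β hα hβ hσ₀ hcd 𝒮
    (fun x hx => hS1 x hx) (fun x hx hpx hαx hβx => hS2 x hx hpx hαx hβx σ₀ hσ₀ c₀ hc₀)
    (fun Y' hY'G hY' => hOLD p M' hp hp2 hpM' P hP Y' hY'G hY') Y hYG hY

/-- **KEY from NEW at the ready levels + OLD.** -/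
theorem keyStatement_of_ready (hNEW : OrdFilReadyStatement)
    (hOLD : Fermat.Agent.S33.OldAugStatement) : Fermat.Agent.S33.KeyStatement := by
  intro p N _ hp hp2 hN hN2 P hP
  by_cases hr : p = 3 → 2 ∣ N
  · exact keyAt_of_ready hNEW hOLD p N hp hp2 hN hN2 hr P hP
  · have h3 : p = 3 := by
      by_contra h
      exact hr (fun h' => absurd h' h)
    have h2N : ¬ 2 ∣ N := fun h => hr (fun _ => h)
    subst h3
    haveI : NeZero (N * 2) := ⟨mul_ne_zero (NeZero.ne N) two_ne_zero⟩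
    refine keyAt_three_of_mul_two N h2N _ ?_
    refine keyAt_of_ready hNEW hOLD 3 (N * 2) hp hp2 (Dvd.dvd.mul_right hN 2) ?_
      (fun _ => Dvd.intro_left N rfl) P hP
    intro h9
    apply hN2
    have hc : Nat.Coprime (3 ^ 2) 2 := by norm_num
    exact hc.dvd_of_dvd_mul_right h9

/-- **KEY from NEW + OLD** (same statement as `H270.keyStatement`; through the ready levels). -/
theorem keyStatement_via_ready (hNEW : Fermat.Agent.S33.OrdFilStatement)
    (hOLD : Fermat.Agent.S33.OldAugStatement) : Fermat.Agent.S33.KeyStatement :=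
  keyStatement_of_ready (ordFilReady_of_ordFil hNEW) hOLD

end Fermat.Agent.S33.H810
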