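import Fermat.Agent.S33.H810.KeyD2Series
import Fermat.Agent.S37.H218.Degree
import Fermat.Agent.A2.H612.Kron

/-!
# Row S33, the `p = 3` gap, steps FIELD and CUBIC (helper810)

`F_N = ℚ̄(X₀(N)) ⊆ ℚ̄((q))`, `N` odd, `α, β : F_N → F_{2N}` the two degeneracy maps
(`α` = inclusion, `β = (q ↦ q²)`), `w` the Fricke involutions.

* `exists_heckeBetaBar_eq` (**FIELD**) : `F_{2N} ∩ ℚ̄((q²)) = β(F_N)`
  (`[F_{2N} : β F_N] = 3` is prime and `j ∉ ℚ̄((q²))`);
* `exists_heckeAlphaBar_eq_of_pow` (**CUBIC**) : `g ∈ F_{2N}`, `g ^ m ∈ F_N`, `m` odd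
  `⟹ g ∈ F_N`  (apply `w_{2N}`: `w(g)^m = β(w_N f) ∈ ℚ̄((q²))`, SERIES, FIELD, apply `w_{2N}`).
-/

set_option autoImplicit false
set_option linter.unusedSectionVars false
set_option linter.style.haveILetI false
set_option synthInstance.maxHeartbeats 400000
set_option maxHeartbeats 1000000

noncomputable section

namespace Fermat.Agent.S33.H810

open ModularCurve HahnSeries AlgebraicCurve
open Fermat.Agent.S24 Fermat.Agent.A2.H528

variable (N : ℕ) [NeZero N]

/-- `j ∉ ℚ̄((q²))`. -/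
theorem jF_notMem_range_qExpand_two (M : ℕ) [NeZero M] :
    ¬ ∃ H : LaurentSeries Kbar, qExpand Kbar 2 H = ((jF M : FF M) : LaurentSeries Kbar) := by
  rintro ⟨H, hH⟩
  have h1 : (((jF M : FF M) : LaurentSeries Kbar)).coeff (-1) = 1 := by
    show (coeffEmb Kbar jq).coeff (-1) = 1
    rw [coeffEmb_coeff, coeff_jq_neg_one, map_one]
  have h2 : (qExpand Kbar 2 H).coeff (-1) = 0 := by
    refine qExpand_coeff_of_not_dvd 2 H ?_
    rintro ⟨c, hc⟩
    push_cast at hc
    omega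
  rw [hH, h1] at h2
  exact one_ne_zero h2

/-- **FIELD.**  For odd `N`: an element of `F_{2N}` which is a series in `q²` lies in `β(F_N)`. -/
theorem exists_heckeBetaBar_eq (hN : ¬ 2 ∣ N) (G : FF (N * 2))
    (hG : ∃ H : LaurentSeries Kbar, qExpand Kbar 2 H = (G : LaurentSeries Kbar)) :
    ∃ H : FF N, heckeBetaBar Kbar N 2 H = G := by
  letI := algebraAlong (heckeBetaBar Kbar N 2)
  have hdeg : Module.finrank (FF N) (FF (N * 2)) = 3 :=
    Fermat.Agent.S37.H218.finrankAlong_heckeBetaBar_of_not_dvd N 2 Nat.prime_two hN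
  -- the intermediate field `F_{2N} ∩ ℚ̄((q²))`
  let S : Subfield (FF (N * 2)) :=
    (qExpand Kbar 2).fieldRange.comap (modularFunctionFieldBar (N * 2)).val.toRingHom
  have hS : ∀ x : FF (N * 2), x ∈ S ↔
      ∃ H : LaurentSeries Kbar, qExpand Kbar 2 H = (x : LaurentSeries Kbar) := fun x => Iff.rfl
  let L : IntermediateField (FF N) (FF (N * 2)) :=
    S.toIntermediateField (fun x => (hS _).mpr ⟨(x : LaurentSeries Kbar), rfl⟩)
  have hL : ∀ x : FF (N * 2), x ∈ L ↔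
      ∃ H : LaurentSeries Kbar, qExpand Kbar 2 H = (x : LaurentSeries Kbar) := fun x => Iff.rfl
  haveI : IsSimpleOrder (IntermediateField (FF N) (FF (N * 2))) :=
    IntermediateField.isSimpleOrder_of_finrank_prime (FF N) (FF (N * 2))
      (by rw [hdeg]; exact Nat.prime_three)
  rcases IsSimpleOrder.eq_bot_or_eq_top L with h | h
  · have hGL : G ∈ L := (hL G).mpr hG
    rw [h, IntermediateField.mem_bot] at hGL
    obtain ⟨H, hH⟩ := hGL
    exact ⟨H, hH⟩
  · exfalso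
    have hj : jF (N * 2) ∈ L := by rw [h]; exact IntermediateField.mem_top
    exact jF_notMem_range_qExpand_two (N * 2) ((hL _).mp hj)

/-- **CUBIC.**  For odd `N` and odd `m`: if `g ∈ F_{2N}` and `g ^ m ∈ F_N` then `g ∈ F_N`. -/
theorem exists_heckeAlphaBar_eq_of_pow (hN : ¬ 2 ∣ N) {m : ℕ} (hm : Odd m)
    (g : FF (N * 2)) (f : FF N) (h : g ^ m = heckeAlphaBar Kbar N 2 f) :
    ∃ g₀ : FF N, heckeAlphaBar Kbar N 2 g₀ = g := by
  set G : FF (N * 2) := wF (N * 2) g with hGdef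
  have hGm : G ^ m = heckeBetaBar Kbar N 2 (wF N f) := by
    rw [hGdef, ← map_pow, h, Fermat.Agent.A2.H612.wF_heckeAlphaBar]
  have hser : ∃ F : LaurentSeries Kbar, qExpand Kbar 2 F = (G : LaurentSeries Kbar) ^ m := by
    refine ⟨((wF N f : FF N) : LaurentSeries Kbar), ?_⟩
    have := congrArg (fun x : FF (N * 2) => (x : LaurentSeries Kbar)) hGm
    simp only [coe_heckeBetaBar] at this
    rw [← this]
    rfl
  obtain ⟨H, hH⟩ := exists_heckeBetaBar_eq N hN G (exists_qExpand_two_of_pow hm hser)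
  refine ⟨wF N H, ?_⟩
  rw [← Fermat.Agent.A2.H612.wF_heckeBetaBar, hH, hGdef, wF_wF]

end Fermat.Agent.S33.H810
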