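import Fermat.Agent.S37.H340.KronTwist

/-!
# Row S33, the `p = 3` gap, step SERIES (helper810)

`K` a field of characteristic zero.  The substitution `q ↦ -q` on `K((q))` (`negQ`), its fixed
field `K((q²))`, and

* `eq_C_of_pow_eq_one`      : the roots of unity of `K((q))` are constants;
* `exists_qExpand_two_of_pow` : `G ^ m ∈ K((q²))`, `m` odd `⟹ G ∈ K((q²))`.
-/

set_option autoImplicit false

noncomputable section

namespace Fermat.Agent.S33.H810

open ModularCurve HahnSeries Fermat.Agent.S37.H340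

variable (K : Type*) [Field K]

/-- The substitution `q ↦ -q` on Laurent series. -/
def negQ : LaurentSeries K →+* LaurentSeries K :=
  twHom 2 (-1 : K) (by norm_num)

variable {K}

theorem negQ_coeff (f : LaurentSeries K) (n : ℤ) :
    (negQ K f).coeff n = zpw 2 (-1 : K) n * f.coeff n :=
  twHom_coeff _ f n

theorem zpw_two_even (n : ℤ) : zpw 2 (-1 : K) (2 * n) = 1 := by
  have := zpw_mul_left (ℓ := 2) (ζ := (-1 : K)) n
  simpa using this

theorem zpw_two_odd (n : ℤ) : zpw 2 (-1 : K) (2 * n + 1) = -1 := by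
  unfold zpw
  have h : ((2 * n + 1) % ((2 : ℕ) : ℤ)).toNat = 1 := by
    have : (2 * n + 1) % ((2 : ℕ) : ℤ) = 1 := by
      push_cast
      omega
    rw [this]
    rfl
  rw [h, pow_one]

theorem negQ_coeff_even (f : LaurentSeries K) (n : ℤ) :
    (negQ K f).coeff (2 * n) = f.coeff (2 * n) := by
  rw [negQ_coeff, zpw_two_even, one_mul]

theorem negQ_coeff_odd (f : LaurentSeries K) (n : ℤ) :
    (negQ K f).coeff (2 * n + 1) = - f.coeff (2 * n + 1) := by
  rw [negQ_coeff, zpw_two_odd, neg_one_mul]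

theorem negQ_negQ (f : LaurentSeries K) : negQ K (negQ K f) = f := by
  ext n
  rcases Int.even_or_odd' n with ⟨k, rfl | rfl⟩
  · rw [negQ_coeff_even, negQ_coeff_even]
  · rw [negQ_coeff_odd, negQ_coeff_odd, neg_neg]

theorem negQ_C (c : K) : negQ K (HahnSeries.C c) = HahnSeries.C c := by
  ext n
  rcases Int.even_or_odd' n with ⟨k, rfl | rfl⟩
  · rw [negQ_coeff_even]
  · rw [negQ_coeff_odd]
    have h0 : (HahnSeries.C c : LaurentSeries K).coeff (2 * k + 1) = 0 := by
      rw [HahnSeries.C_apply, HahnSeries.coeff_single_of_ne (by omega)]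
    rw [h0, neg_zero]

theorem negQ_qExpand (g : LaurentSeries K) : negQ K (qExpand K 2 g) = qExpand K 2 g :=
  tw_qExpand (ℓ := 2) (-1 : K) g

/-- The fixed points of `q ↦ -q` are the series in `q²`. -/
theorem exists_qExpand_two_of_negQ_eq [CharZero K] {f : LaurentSeries K} (h : negQ K f = f) :
    ∃ g : LaurentSeries K, qExpand K 2 g = f := by
  have hodd : ∀ n : ℤ, f.coeff (2 * n + 1) = 0 := by
    intro n
    have h1 := negQ_coeff_odd f n
    rw [h] at h1
    have h2 : (2 : K) * f.coeff (2 * n + 1) = 0 := by linear_combination h1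
    rcases mul_eq_zero.mp h2 with h3 | h3
    · exact absurd h3 two_ne_zero
    · exact h3
  have hbdd : BddBelow (Function.support fun n : ℤ => f.coeff (2 * n)) := by
    refine ⟨min f.order 0, fun n hn => ?_⟩
    have hn' : f.coeff (2 * n) ≠ 0 := hn
    have h1 : f.order ≤ 2 * n := HahnSeries.order_le_of_coeff_ne_zero hn'
    by_contra hlt
    rw [not_le] at hlt
    have hn0 : n < 0 := lt_of_lt_of_le hlt (min_le_right _ _)
    have hnb : n < f.order := lt_of_lt_of_le hlt (min_le_left _ _)
    omega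
  refine ⟨HahnSeries.ofSuppBddBelow _ hbdd, ?_⟩
  ext n
  rcases Int.even_or_odd' n with ⟨k, rfl | rfl⟩
  · have := qExpand_coeff_mul (R := K) 2 (HahnSeries.ofSuppBddBelow _ hbdd) k
    rw [show ((2 : ℕ) : ℤ) * k = 2 * k by norm_num] at this
    rw [this]
    rfl
  · rw [hodd k]
    refine qExpand_coeff_of_not_dvd 2 _ ?_
    rintro ⟨c, hc⟩
    push_cast at hc
    omega

/-- The roots of unity of `K((q))` are constants. -/
theorem eq_C_of_pow_eq_one [CharZero K] {x : LaurentSeries K} {m : ℕ} (hm : 0 < m)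
    (hx : x ^ m = 1) : ∃ c : K, x = HahnSeries.C c := by
  have hx0 : x ≠ 0 := by
    rintro rfl
    rw [zero_pow hm.ne'] at hx
    exact zero_ne_one hx
  have hord : x.order = 0 := by
    have h1 : (x ^ m).order = m • x.order := HahnSeries.order_pow x m
    rw [hx, HahnSeries.order_one] at h1
    have h2 : (m : ℤ) * x.order = 0 := by
      rw [← smul_eq_mul, natCast_zsmul]
      exact h1.symm
    rcases mul_eq_zero.mp h2 with h3 | h3
    · exact absurd h3 (by exact_mod_cast hm.ne')
    · exact h3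
  -- `x` is a power series
  set X₀ : PowerSeries K := LaurentSeries.powerSeriesPart x with hX₀
  have hxX : HahnSeries.ofPowerSeries ℤ K X₀ = x := by
    have := LaurentSeries.single_order_mul_powerSeriesPart x
    rw [hord] at this
    have h1 : (HahnSeries.single (0 : ℤ) (1 : K)) = 1 := rfl
    rw [h1, one_mul] at this
    exact this
  have hX₀m : X₀ ^ m = 1 := by
    apply HahnSeries.ofPowerSeries_injective (Γ := ℤ) (R := K)
    rw [map_pow, hxX, hx, map_one]
  set c : K := PowerSeries.constantCoeff X₀ with hc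
  have hcm : c ^ m = 1 := by
    rw [hc, ← map_pow, hX₀m, map_one]
  have hc0 : c ≠ 0 := by
    intro h0
    rw [h0, zero_pow hm.ne'] at hcm
    exact zero_ne_one hcm
  set V : PowerSeries K := PowerSeries.C c⁻¹ * X₀ with hV
  have hV1 : PowerSeries.constantCoeff V = 1 := by
    rw [hV, map_mul, PowerSeries.constantCoeff_C, ← hc, inv_mul_cancel₀ hc0]
  have hVm : V ^ m = 1 := by
    rw [hV, mul_pow, hX₀m, mul_one, ← map_pow, inv_pow, hcm, inv_one, map_one]
  have hgeom : (V - 1) * ∑ i ∈ Finset.range m, V ^ i = 0 := by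
    rw [mul_geom_sum, hVm, sub_self]
  have hsum : (∑ i ∈ Finset.range m, V ^ i) ≠ 0 := by
    intro h0
    have h1 := congrArg PowerSeries.constantCoeff h0
    rw [map_sum, map_zero] at h1
    simp only [map_pow, hV1, one_pow, Finset.sum_const, Finset.card_range, nsmul_eq_mul,
      mul_one] at h1
    exact absurd h1 (by exact_mod_cast hm.ne')
  have hVeq : V = 1 := by
    rcases mul_eq_zero.mp hgeom with h | h
    · exact sub_eq_zero.mp h
    · exact absurd h hsum
  have hX₀C : X₀ = PowerSeries.C c := by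
    have : PowerSeries.C c * V = PowerSeries.C c := by rw [hVeq, mul_one]
    rw [hV, ← mul_assoc, ← map_mul, mul_inv_cancel₀ hc0, map_one, one_mul] at this
    exact this
  refine ⟨c, ?_⟩
  rw [← hxX, hX₀C, HahnSeries.ofPowerSeries_C]

/-- **SERIES.**  If `G ^ m ∈ K((q²))` with `m` odd, then `G ∈ K((q²))`. -/
theorem exists_qExpand_two_of_pow [CharZero K] {G : LaurentSeries K} {m : ℕ} (hm : Odd m)
    (h : ∃ F : LaurentSeries K, qExpand K 2 F = G ^ m) :
    ∃ H : LaurentSeries K, qExpand K 2 H = G := by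
  by_cases hG : G = 0
  · exact ⟨0, by rw [hG, map_zero]⟩
  obtain ⟨F, hF⟩ := h
  have hm0 : 0 < m := hm.pos
  have hτG : negQ K G ≠ 0 := by
    intro h0
    apply hG
    rw [← negQ_negQ G, h0, map_zero]
  set u : LaurentSeries K := negQ K G * G⁻¹ with hu
  have hum : u ^ m = 1 := by
    rw [hu, mul_pow, ← map_pow, ← hF, negQ_qExpand, hF, inv_pow,
      mul_inv_cancel₀ (pow_ne_zero m hG)]
  obtain ⟨c, hc⟩ := eq_C_of_pow_eq_one hm0 hum
  have hτu : negQ K u = u⁻¹ := by
    rw [hu, map_mul, negQ_negQ, map_inv₀, mul_inv, inv_inv, mul_comm]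
  have hu2 : u * u = 1 := by
    have h1 : negQ K u = u := by rw [hc, negQ_C]
    rw [h1] at hτu
    have hu0 : u ≠ 0 := mul_ne_zero hτG (inv_ne_zero hG)
    calc u * u = u * u⁻¹ := by rw [← hτu]
      _ = 1 := mul_inv_cancel₀ hu0
  have hu1 : u = 1 := by
    obtain ⟨k, rfl⟩ := hm
    have h2 : u ^ (2 * k + 1) = u := by
      rw [pow_succ, pow_mul, pow_two, hu2, one_pow, one_mul]
    rw [← h2, hum]
  have hfix : negQ K G = G := by
    have h3 : negQ K G = u * G := by
      rw [hu, mul_assoc, inv_mul_cancel₀ hG, mul_one]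
    rw [h3, hu1, one_mul]
  exact exists_qExpand_two_of_negQ_eq hfix

end Fermat.Agent.S33.H810
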